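import Fermat.Agent.Red.Kron51.Core
import Fermat.Agent.Red.Kron.Norm
import Fermat.Agent.Red.GV.Bar
import Fermat.Agent.Bridge.Frobenius

/-!
# P-RED, R-ESTF: the Kronecker congruence in function form (`IfaceCongFrobenius`)

For a Frobenius element `σ` at `A` (over `ℓ ∤ N`) and `u ≠ 0` in `F_N`, after scaling `u` by a
constant, `Norm_α(β u) / (σ u · (σ⁻¹ u) ^ ℓ) ≡ 1` modulo the Gauss valuation.

Inputs: the norm formula `Fermat.Agent.Red.Kron.norm_beta_eq` (helper44), the Gauss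
normalisation `exists_gauss_rep` (GV, helper28), the abstract congruence `h51_congFrob_core`.
-/

set_option autoImplicit false

open ModularCurve AlgebraicCurve

noncomputable section

namespace Fermat.Agent.Red.Kron51

open Fermat.Agent.S28 Fermat.Agent.Red.GV Fermat.Agent.Red.GV.Asm Fermat.Agent.S37
open Fermat.Agent.Red.Kron

/-- the norm formula in terms of `h51_Phi`. -/
theorem h51_norm_Phi (N ℓ : ℕ) [NeZero N] [NeZero ℓ] (hℓ : ℓ.Prime) (hN : ¬ ℓ ∣ N)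
    (ζ : Kbar) (hζ : IsPrimitiveRoot ζ ℓ) (u : FF N) :
    letI := algebraAlong (heckeAlphaBar Kbar N ℓ)
    qExpand Kbar ℓ
        ((Algebra.norm (FF N) (heckeBetaBar Kbar N ℓ u) : FF N) : LaurentSeries Kbar) =
      h51_Phi ℓ ζ (u : LaurentSeries Kbar) :=
  norm_beta_eq N ℓ hℓ hN ζ hζ u

/-- **R-ESTF.**  The Kronecker congruence in function form. -/
theorem ifaceCongFrobenius (N : ℕ) [NeZero N] : IfaceCongFrobenius N := by
  intro ℓ hℓ hℓN A hA σ hσ u hu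
  have : Fact ℓ.Prime := ⟨hℓ⟩
  have hNZ : NeZero ℓ := ⟨hℓ.ne_zero⟩
  letI := algebraAlong (heckeAlphaBar Kbar N ℓ)
  obtain ⟨D⟩ := exists_igusaInput N ℓ hℓN
  have hπ : IsResidueMap A (IsLocalRing.residue A) ℓ := isResidueMap_residue A ℓ hA
  have hchar : CharP (IsLocalRing.ResidueField A) ℓ := by
    rw [CharP.charP_iff_prime_eq_zero hℓ]
    have h1 : ((ℓ : A) : Kbar) ∈ A.nonunits := by
      have : ((ℓ : A) : Kbar) = (ℓ : Kbar) := by simp
      rw [this]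
      exact hA
    have h2 := (hπ.ker_eq (ℓ : A)).mpr h1
    rwa [map_natCast] at h2
  -- a primitive root of unity
  obtain ⟨ζ, hζ⟩ : ∃ ζ : Kbar, IsPrimitiveRoot ζ ℓ :=
    HasEnoughRootsOfUnity.exists_primitiveRoot Kbar ℓ
  -- the Galois data
  have hdec : σ ∈ A.decompositionSubgroup ℚ := hσ.mem_decompositionSubgroup
  have hdec' : σ⁻¹ ∈ A.decompositionSubgroup ℚ := inv_mem hdec
  have hmem : ∀ z ∈ A, (σ : Kbar →+* Kbar) z ∈ A := by
    intro z hz
    exact ((⟨σ, hdec⟩ : A.decompositionSubgroup ℚ) • (⟨z, hz⟩ : A) : A).2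
  have hmem' : ∀ z ∈ A, ((σ⁻¹ : GQ) : Kbar →+* Kbar) z ∈ A := by
    intro z hz
    exact ((⟨σ⁻¹, hdec'⟩ : A.decompositionSubgroup ℚ) • (⟨z, hz⟩ : A) : A).2
  have hστ : ∀ z : Kbar, (σ : Kbar →+* Kbar) (((σ⁻¹ : GQ) : Kbar →+* Kbar) z) = z := by
    intro z
    show σ ((σ⁻¹ : GQ) z) = z
    rw [← AlgEquiv.mul_apply, mul_inv_cancel]
    rfl
  have hF : ∀ z ∈ A, (σ : Kbar →+* Kbar) z - z ^ ℓ ∈ A.nonunits := fun z hz =>
    Fermat.Agent.Bridge.frob_sub_pow_mem_nonunits hσ hz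
  -- the Gauss normalisation
  have hx0 : (u : LaurentSeries Kbar) ≠ 0 := fun h0 => hu (Subtype.ext h0)
  obtain ⟨c, Dn, P, bb, hc, hDn, hbb, -, hrep⟩ :=
    exists_gauss_rep A (IsLocalRing.residue A) N ℓ hπ D (u : LaurentSeries Kbar) u.2 hx0
  refine ⟨c, hc, ?_⟩
  -- the three functions
  set v : FF N := cst N c * u with hv
  set zF : FF N := evalF N A (jB N) Dn with hzF
  have hvX : ((v : FF N) : LaurentSeries Kbar) = HahnSeries.C c * (u : LaurentSeries Kbar) := by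
    have hC : (HahnSeries.C c : LaurentSeries Kbar) =
        algebraMap Kbar (LaurentSeries Kbar) c := by
      rw [algebraMap_laurentSeries_eq_single]; rfl
    rw [hC]; rfl
  have hX0 : ((v : FF N) : LaurentSeries Kbar) ≠ 0 := by
    rw [hvX]
    exact mul_ne_zero (C_ne_zero' hc) hx0
  have hzZ : ((zF : FF N) : LaurentSeries Kbar) = embA A (evalC (jqModC A) Dn) := by
    rw [hzF, coe_evalF, coe_jB, embA_evalC_j]
  have hyY : ((zF * v : FF N) : LaurentSeries Kbar) = embA A bb := by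
    rw [← hrep]
    show ((zF : FF N) : LaurentSeries Kbar) * ((v : FF N) : LaurentSeries Kbar) = _
    rw [hvX, hzF, coe_evalF, coe_jB]
    ring
  have hrep' : embA A (evalC (jqModC A) Dn) * ((v : FF N) : LaurentSeries Kbar) = embA A bb := by
    rw [← hzZ, ← hyY]
    rfl
  -- the norms
  have hnX := h51_norm_Phi N ℓ hℓ hℓN ζ hζ v
  have hnZ := h51_norm_Phi N ℓ hℓ hℓN ζ hζ zF
  have hnY := h51_norm_Phi N ℓ hℓ hℓN ζ hζ (zF * v)
  rw [hzZ] at hnZ
  rw [hyY] at hnY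
  obtain ⟨a, b, hb, hab, hred⟩ := h51_congFrob_core A (IsLocalRing.residue A) hπ.ker_eq hℓ
    (hζ.pow_eq_one) (σ : Kbar →+* Kbar) ((σ⁻¹ : GQ) : Kbar →+* Kbar) hmem hmem' hστ hF
    ((v : FF N) : LaurentSeries Kbar) hX0 (evalC (jqModC A) Dn)
    (redA_evalC_j_ne_zero _ _ hDn) bb hbb hrep' _ _ _ hnX hnZ hnY
  refine ⟨a, b, hb, ?_, hred⟩
  rw [hab]
  congr 1
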