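import Fermat.Agent.Red.Kron51.PolyCong
import Fermat.Agent.Red.Kron51.Final
import Fermat.Agent.Red.Kron.CharpolyAlong
import Fermat.Agent.Red.GV.BarGalois

/-!
# P-RED, R-KR (I2): the polynomial Kronecker congruence in function-field form

For `u` Gauss-integral in `F_N` (level prime to `ℓ`) the characteristic polynomial `Ψ_u` of
`α(u)` over `β(F_N)` has Gauss-integral coefficients and

  `Ψ_u ≡ (X - (σ⁻¹ u)^ℓ) · (X^ℓ - σ u)`  modulo the Gauss valuation,

for every Frobenius element `σ` at `A`.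
-/

set_option autoImplicit false

open ModularCurve AlgebraicCurve Polynomial

noncomputable section

namespace Fermat.Agent.Red.Kron51

open Fermat.Agent.S28 Fermat.Agent.Red.GV Fermat.Agent.Red.GV.Asm Fermat.Agent.S37
open Fermat.Agent.Red.Kron Fermat.Agent.Red.TRK

/-- the characteristic of the residue field. -/
theorem h51_charP_residue (A : ValuationSubring Kbar) {ℓ : ℕ} (hℓ : ℓ.Prime)
    (hA : A.LiesOverPrime ℓ) : CharP (IsLocalRing.ResidueField A) ℓ := by
  have hπ : IsResidueMap A (IsLocalRing.residue A) ℓ := isResidueMap_residue A ℓ hA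
  rw [CharP.charP_iff_prime_eq_zero hℓ]
  have h1 : ((ℓ : A) : Kbar) ∈ A.nonunits := by
    have : ((ℓ : A) : Kbar) = (ℓ : Kbar) := by simp
    rw [this]
    exact hA
  have h2 := (hπ.ker_eq (ℓ : A)).mpr h1
  rwa [map_natCast] at h2

/-- **reduction of the characteristic polynomial of the Hecke correspondence.** -/
theorem h51_charpoly_gauss (N : ℕ) [NeZero N] {ℓ : ℕ} [NeZero ℓ] (hℓ : ℓ.Prime) (hN : ¬ ℓ ∣ N)
    (A : ValuationSubring Kbar) (hA : A.LiesOverPrime ℓ)
    [ExpChar (IsLocalRing.ResidueField A) ℓ]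
    (hfin : FiniteAlong Kbar (heckeBetaBar Kbar N ℓ)) (u : gaussV A N) (m : ℕ) :
    ∃ h : (charpolyAlong (heckeBetaBar Kbar N ℓ) hfin
        (heckeAlphaBar Kbar N ℓ (u : FF N))).coeff m ∈ gaussV A N,
      gaussR A N ⟨_, h⟩ =
        ((X - C (qExpand (IsLocalRing.ResidueField A) ℓ (gaussR A N u))) *
          (X ^ ℓ - C (coeffMap (frobenius (IsLocalRing.ResidueField A) ℓ)
            (gaussR A N u)))).coeff m := by
  have : Fact ℓ.Prime := ⟨hℓ⟩
  have hπ : IsResidueMap A (IsLocalRing.residue A) ℓ := isResidueMap_residue A ℓ hA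
  haveI hchar : CharP (IsLocalRing.ResidueField A) ℓ := h51_charP_residue A hℓ hA
  obtain ⟨ζ, hζ⟩ : ∃ ζ : Kbar, IsPrimitiveRoot ζ ℓ :=
    HasEnoughRootsOfUnity.exists_primitiveRoot Kbar ℓ
  -- the representation of `u`
  obtain ⟨Q, hQ, Y, hY⟩ := (mem_gaussV_iff A N (u : FF N)).1 u.2
  set Z : LaurentSeries A := evalC (jqModC A) Q with hZ
  have hZemb : embA A Z = evalA A (jK Kbar) Q := embA_evalC_j A Q
  have hZred : redA (IsLocalRing.residue A) Z ≠ 0 := redA_evalC_j_ne_zero _ Q hQ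
  have hrep : embA A Z * ((u : FF N) : LaurentSeries Kbar) = embA A Y := by
    rw [hZemb, hY]
  set zF : FF N := evalF N A (jB N) Q with hzF
  have hzZ : ((zF : FF N) : LaurentSeries Kbar) = embA A Z := by
    rw [hzF, coe_evalF, coe_jB, hZemb]
  -- the norm of `Z`
  letI := algebraAlong (heckeAlphaBar Kbar N ℓ)
  set nF : FF N := Algebra.norm (FF N) (heckeBetaBar Kbar N ℓ zF) with hnF
  have hnZ : qExpand Kbar ℓ ((nF : FF N) : LaurentSeries Kbar) = h51_Phi ℓ ζ (embA A Z) := by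
    rw [← hzZ]
    exact h51_norm_Phi N ℓ hℓ hN ζ hζ zF
  -- the characteristic polynomial
  set Ψ : Polynomial (FF N) := charpolyAlong (heckeBetaBar Kbar N ℓ) hfin
    (heckeAlphaBar Kbar N ℓ (u : FF N)) with hΨ
  have hP : (Ψ.map (algebraMap (FF N) (LaurentSeries Kbar))).map (qExpand Kbar ℓ) =
      (X - C (qExpand Kbar (ℓ * ℓ) ((u : FF N) : LaurentSeries Kbar))) *
        ∏ b ∈ Finset.range ℓ, (X - C (twistK (ζ ^ b) ((u : FF N) : LaurentSeries Kbar))) := by
    rw [Polynomial.map_map]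
    exact charpolyAlong_beta_alpha N ℓ hℓ hN ζ hζ hfin (u : FF N)
  obtain ⟨PA, nA, hnA, hnAr, hPA, hPAr⟩ := h51_charpoly_red A (IsLocalRing.residue A)
    hπ.ker_eq hℓ hζ.pow_eq_one Y Z ((u : FF N) : LaurentSeries Kbar) hrep
    ((nF : FF N) : LaurentSeries Kbar) hnZ _ hP
  -- the norm is a Gauss unit
  have hnFmem : nF ∈ gaussV A N := mem_gaussSubring_of_embA A _ N nF nA hnA
  have hnFred : gaussR A N ⟨nF, hnFmem⟩ = redA (IsLocalRing.residue A) nA :=
    gaussRed_of_embA A _ N ⟨nF, hnFmem⟩ nA hnA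
  have hqZ : qExpand (IsLocalRing.ResidueField A) ℓ (redA (IsLocalRing.residue A) Z) ≠ 0 :=
    fun h0 => hZred (qExpand_injective (R := IsLocalRing.ResidueField A) ℓ
      (by rw [h0, map_zero]))
  have hfZ : coeffMap (frobenius (IsLocalRing.ResidueField A) ℓ)
      (redA (IsLocalRing.residue A) Z) ≠ 0 :=
    fun h0 => hZred (h51_coeffMap_injective _ (frobenius_inj _ ℓ) (by rw [h0, map_zero]))
  have hnA0 : redA (IsLocalRing.residue A) nA ≠ 0 := by
    rw [hnAr]
    exact mul_ne_zero hqZ hfZ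
  -- the numerator
  set c : FF N := Ψ.coeff m with hc
  have hpm : ((nF * c : FF N) : LaurentSeries Kbar) = embA A (PA.coeff m) := by
    have h1 := congrArg (fun p : Polynomial (LaurentSeries Kbar) => p.coeff m) hPA
    simp only [Polynomial.coeff_map, Polynomial.coeff_C_mul] at h1
    rw [h1]
    rfl
  have hpmem : nF * c ∈ gaussV A N := mem_gaussSubring_of_embA A _ N (nF * c) _ hpm.symm
  have hpred : gaussR A N ⟨nF * c, hpmem⟩ = redA (IsLocalRing.residue A) (PA.coeff m) :=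
    gaussRed_of_embA A _ N ⟨nF * c, hpmem⟩ _ hpm.symm
  -- the coefficient is Gauss-integral
  have hcmem : c ∈ gaussV A N := by
    rcases mem_or_inv_mem_gaussV A N hℓ hN hA c with h | h
    · exact h
    · by_contra hcon
      have hc0 : c ≠ 0 := fun h0 => hcon (h0 ▸ (gaussV A N).zero_mem)
      have h1 : gaussR A N ⟨c⁻¹, h⟩ = 0 := by
        rw [gaussR_eq_zero_iff A N hℓ hN hA]
        right
        show (c⁻¹)⁻¹ ∉ gaussV A N
        rwa [inv_inv]
      have h2 : (⟨nF, hnFmem⟩ : gaussV A N) = ⟨nF * c, hpmem⟩ * ⟨c⁻¹, h⟩ := by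
        apply Subtype.ext
        show nF = nF * c * c⁻¹
        field_simp
      have h3 := congrArg (gaussR A N) h2
      rw [map_mul, h1, mul_zero, hnFred] at h3
      exact hnA0 h3
  refine ⟨hcmem, ?_⟩
  -- the reduction of `u`
  have hured : gaussR A N u * redA (IsLocalRing.residue A) Z =
      redA (IsLocalRing.residue A) Y := by
    rw [hZ, redA_evalC_j]
    exact gaussRed_spec A _ N u Q Y hQ hY
  have hmul : (⟨nF * c, hpmem⟩ : gaussV A N) = ⟨nF, hnFmem⟩ * ⟨c, hcmem⟩ := Subtype.ext rfl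
  have h4 := congrArg (gaussR A N) hmul
  rw [map_mul, hpred, hnFred] at h4
  have h5 := congrArg (fun p : Polynomial (LaurentSeries (IsLocalRing.ResidueField A)) =>
    p.coeff m) hPAr
  simp only [Polynomial.coeff_map] at h5
  have h6 : (C (qExpand (IsLocalRing.ResidueField A) ℓ (redA (IsLocalRing.residue A) Z)) * X -
        C (qExpand (IsLocalRing.ResidueField A) ℓ (redA (IsLocalRing.residue A) Y))) *
      (C (coeffMap (frobenius (IsLocalRing.ResidueField A) ℓ)
          (redA (IsLocalRing.residue A) Z)) * X ^ ℓ -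
        C (coeffMap (frobenius (IsLocalRing.ResidueField A) ℓ)
          (redA (IsLocalRing.residue A) Y))) =
      C (redA (IsLocalRing.residue A) nA) *
        ((X - C (qExpand (IsLocalRing.ResidueField A) ℓ (gaussR A N u))) *
          (X ^ ℓ - C (coeffMap (frobenius (IsLocalRing.ResidueField A) ℓ)
            (gaussR A N u)))) := by
    rw [hnAr, ← hured]
    simp only [map_mul]
    ring
  rw [h6, Polynomial.coeff_C_mul, h4] at h5
  exact mul_left_cancel₀ hnA0 h5

/-- **(I2) the polynomial Kronecker congruence.**  For a Frobenius element `σ` at `A` and a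
Gauss-integral `u`, every coefficient of
`Ψ_u - (X - (σ⁻¹ u)^ℓ) · (X^ℓ - σ u)` is Gauss-integral with reduction `0`. -/
theorem h51_charpoly_cong (N : ℕ) [NeZero N] {ℓ : ℕ} [NeZero ℓ] (hℓ : ℓ.Prime) (hN : ¬ ℓ ∣ N)
    (A : ValuationSubring Kbar) (hA : A.LiesOverPrime ℓ) (σ : GQ) (hσ : A.IsFrobeniusAt σ ℓ)
    (hfin : FiniteAlong Kbar (heckeBetaBar Kbar N ℓ)) (u : FF N) (hu : u ∈ gaussV A N)
    (m : ℕ) :
    ∃ h : (charpolyAlong (heckeBetaBar Kbar N ℓ) hfin (heckeAlphaBar Kbar N ℓ u)).coeff m -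
        ((X - C ((gal N σ⁻¹ • u) ^ ℓ)) * (X ^ ℓ - C (gal N σ • u)) :
          Polynomial (FF N)).coeff m ∈ gaussV A N,
      gaussR A N ⟨_, h⟩ = 0 := by
  haveI hchar : CharP (IsLocalRing.ResidueField A) ℓ := h51_charP_residue A hℓ hA
  haveI : ExpChar (IsLocalRing.ResidueField A) ℓ := ExpChar.prime hℓ
  have hdec : σ ∈ A.decompositionSubgroup ℚ := hσ.mem_decompositionSubgroup
  have hdec' : σ⁻¹ ∈ A.decompositionSubgroup ℚ := inv_mem hdec
  -- the two conjugates
  obtain ⟨h1, hr1⟩ := gaussR_gal_of_frobenius A N hσ ⟨u, hu⟩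
  have hw : gal N σ⁻¹ • u ∈ gaussV A N := gal_smul_mem_gaussV A N σ⁻¹ hdec' u hu
  obtain ⟨h2, hr2⟩ := gaussR_gal_of_frobenius A N hσ ⟨gal N σ⁻¹ • u, hw⟩
  have hσσ : gal N σ • (gal N σ⁻¹ • u) = u := by
    rw [← mul_smul, ← map_mul, mul_inv_cancel, map_one, one_smul]
  have hred1 : gaussR A N ⟨gal N σ • u, h1⟩ =
      coeffMap (frobenius (IsLocalRing.ResidueField A) ℓ) (gaussR A N ⟨u, hu⟩) := by
    ext n
    rw [hr1 n, coeffMap_coeff, frobenius_def]
  have hred2 : gaussR A N ⟨gal N σ⁻¹ • u, hw⟩ ^ ℓ =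
      qExpand (IsLocalRing.ResidueField A) ℓ (gaussR A N ⟨u, hu⟩) := by
    rw [pow_char_eq_qExpand ℓ]
    congr 1
    ext n
    rw [coeffMap_coeff, frobenius_def, ← hr2 n]
    congr 2
    exact Subtype.ext hσσ
  -- the comparison polynomial over the Gauss ring
  set RA : Polynomial (gaussV A N) :=
    (X - C (⟨gal N σ⁻¹ • u, hw⟩ ^ ℓ)) * (X ^ ℓ - C ⟨gal N σ • u, h1⟩) with hRA
  have hRA1 : RA.map (gaussV A N).subtype =
      ((X - C ((gal N σ⁻¹ • u) ^ ℓ)) * (X ^ ℓ - C (gal N σ • u)) : Polynomial (FF N)) := by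
    rw [hRA]
    simp only [Polynomial.map_mul, Polynomial.map_sub, Polynomial.map_X, Polynomial.map_pow,
      Polynomial.map_C]
    rfl
  have hRA2 : RA.map (gaussR A N) =
      (X - C (qExpand (IsLocalRing.ResidueField A) ℓ (gaussR A N ⟨u, hu⟩))) *
        (X ^ ℓ - C (coeffMap (frobenius (IsLocalRing.ResidueField A) ℓ)
          (gaussR A N ⟨u, hu⟩))) := by
    rw [hRA]
    simp only [Polynomial.map_mul, Polynomial.map_sub, Polynomial.map_X, Polynomial.map_pow,
      Polynomial.map_C, map_pow]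
    rw [hred1, ← Polynomial.C_pow, hred2]
  obtain ⟨hc, hcr⟩ := h51_charpoly_gauss N hℓ hN A hA hfin ⟨u, hu⟩ m
  have hRm : ((X - C ((gal N σ⁻¹ • u) ^ ℓ)) * (X ^ ℓ - C (gal N σ • u)) :
      Polynomial (FF N)).coeff m = ((RA.coeff m : gaussV A N) : FF N) := by
    rw [← hRA1, Polynomial.coeff_map]
    rfl
  have hmem : (charpolyAlong (heckeBetaBar Kbar N ℓ) hfin (heckeAlphaBar Kbar N ℓ u)).coeff m -
      ((X - C ((gal N σ⁻¹ • u) ^ ℓ)) * (X ^ ℓ - C (gal N σ • u)) :
        Polynomial (FF N)).coeff m ∈ gaussV A N := by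
    rw [hRm]
    exact (gaussV A N).sub_mem hc (RA.coeff m).2
  refine ⟨hmem, ?_⟩
  have h3 : (⟨_, hmem⟩ : gaussV A N) = ⟨_, hc⟩ - RA.coeff m := by
    apply Subtype.ext
    show _ - _ = _ - ((RA.coeff m : gaussV A N) : FF N)
    rw [hRm]
  rw [h3, map_sub, hcr, ← hRA2, Polynomial.coeff_map, sub_self]

end Fermat.Agent.Red.Kron51
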