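import Fermat.Agent.Red.Kron51.FrobSeries
import Fermat.Agent.Red.Kron.Twist
import Fermat.Agent.Red.EstI

/-!
# P-RED, R-ESTF parts (ii) + (iii): the abstract Kronecker congruence

Setting: `K` a field, `A` a valuation subring with residue map `π : A → k`, `k` of
characteristic `ℓ`, `ζ ^ ℓ = 1`, `σ` a ring endomorphism of `K` which maps `A` into itself and
induces the Frobenius `x ↦ x ^ ℓ` on `k`, `τ` a right inverse of `σ` mapping `A` into itself.

For a series `W ∈ K((t))` put `Φ W = W(t^{ℓ²}) · ∏_{b < ℓ} W(ζ^b t)`.  If `n(t^ℓ) = Φ W` and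
`W` has coefficients in `A`, then `n` has coefficients in `A` and
`n ≡ (σ W) · (τ W) ^ ℓ` modulo `𝔪_A`.
-/

set_option autoImplicit false

open ModularCurve

noncomputable section

namespace Fermat.Agent.Red.Kron51

open Fermat.Agent.Red.GV Fermat.Agent.Red.GV.Asm Fermat.Agent.Red.Kron Fermat.Agent.Red.EstI

/-- `coeffMap` of an injective ring homomorphism is injective. -/
theorem h51_coeffMap_injective {R S : Type*} [CommRing R] [CommRing S] (f : R →+* S)
    (hf : Function.Injective f) : Function.Injective (coeffMap f) := by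
  intro x y hxy
  ext n
  have := congrArg (fun s : LaurentSeries S => s.coeff n) hxy
  simp only [coeffMap_coeff] at this
  exact hf this

section Twist

variable {K : Type} [Field K] (A : ValuationSubring K) {k : Type} [Field k] (π : A →+* k)

/-- a root of unity of order `ℓ` lies in `A` and reduces to `1` in characteristic `ℓ`. -/
theorem h51_root_mem {ℓ : ℕ} (hℓ : ℓ.Prime) [CharP k ℓ] {ζ : K} (hζ : ζ ^ ℓ = 1) :
    ∃ h : ζ ∈ A, π ⟨ζ, h⟩ = 1 := by
  have hmem : ζ ∈ A := by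
    rcases A.mem_or_inv_mem ζ with h | h
    · exact h
    · have h1 : ζ = ζ⁻¹ ^ (ℓ - 1) := by
        have hζ0 : ζ ≠ 0 := by
          rintro rfl
          rw [zero_pow hℓ.ne_zero] at hζ
          exact zero_ne_one hζ
        have h2 : ζ ^ (ℓ - 1) * ζ = 1 := by
          rw [← pow_succ, Nat.sub_add_cancel hℓ.one_le, hζ]
        rw [inv_pow]
        exact (eq_inv_of_mul_eq_one_right h2)
      rw [h1]
      exact pow_mem h _
  refine ⟨hmem, ?_⟩
  haveI : ExpChar k ℓ := ExpChar.prime hℓ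
  have h1 : (π ⟨ζ, hmem⟩) ^ ℓ = 1 := by
    rw [← map_pow]
    have : (⟨ζ, hmem⟩ : A) ^ ℓ = 1 := Subtype.ext (by simpa using hζ)
    rw [this, map_one]
  have h2 : frobenius k ℓ (π ⟨ζ, hmem⟩) = frobenius k ℓ 1 := by
    rw [frobenius_def, frobenius_def, h1, one_pow]
  exact frobenius_inj k ℓ h2

/-- twisting by an element of `A` which reduces to `1` does not change the reduction. -/
theorem h51_twist_red (hker : ∀ a : A, π a = 0 ↔ (a : K) ∈ A.nonunits)
    (ω : K) (hω : ω ∈ A) (hω1 : π ⟨ω, hω⟩ = 1) (y : LaurentSeries A) :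
    ∃ g : LaurentSeries A, embA A g = twistK ω (embA A y) ∧ redA π g = redA π y := by
  -- `ω` is a unit of `A`
  have hu : IsUnit (⟨ω, hω⟩ : A) := by
    rw [← IsLocalRing.notMem_maximalIdeal, ← ValuationSubring.coe_mem_nonunits_iff, ← hker, hω1]
    exact one_ne_zero
  obtain ⟨u, hu'⟩ := hu
  have hval : ∀ n : ℤ, (((u ^ n : Aˣ) : A) : K) = ω ^ n := by
    intro n
    have h1 : ((Units.map A.subtype.toMonoidHom u : Kˣ) : K) = ω := by
      show ((u : A) : K) = ω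
      rw [hu']
    have h2 : ((Units.map A.subtype.toMonoidHom (u ^ n) : Kˣ) : K) = ω ^ n := by
      rw [map_zpow, Units.val_zpow_eq_zpow_val, h1]
    exact h2
  have hπu : ∀ n : ℤ, π ((u ^ n : Aˣ) : A) = 1 := by
    intro n
    have h1 : ((Units.map π.toMonoidHom u : kˣ) : k) = 1 := by
      show π (u : A) = 1
      rw [hu', hω1]
    have h2 : ((Units.map π.toMonoidHom (u ^ n) : kˣ) : k) = 1 := by
      rw [map_zpow, Units.val_zpow_eq_zpow_val, h1, one_zpow]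
    exact h2
  obtain ⟨g, hg⟩ := (exists_embA_eq_iff A (twistK ω (embA A y))).2 (fun n => by
    rw [coeff_twistK, h36_embA_coeff, ← hval n]
    exact (y.coeff n * ((u ^ n : Aˣ) : A)).2)
  refine ⟨g, hg, ?_⟩
  ext n
  have h1 : g.coeff n = y.coeff n * ((u ^ n : Aˣ) : A) := by
    apply Subtype.ext
    have := congrArg (fun s : LaurentSeries K => s.coeff n) hg
    simp only [h36_embA_coeff, coeff_twistK] at this
    rw [this, ← hval n]
    rfl
  rw [h36_redA_coeff, h36_redA_coeff, h1, map_mul, hπu n, mul_one]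

/-- the product of the twists by the powers of `ζ`. -/
theorem h51_prod_twist_red (hker : ∀ a : A, π a = 0 ↔ (a : K) ∈ A.nonunits)
    {ℓ : ℕ} (hℓ : ℓ.Prime) [CharP k ℓ] {ζ : K} (hζ : ζ ^ ℓ = 1)
    (y : LaurentSeries A) :
    ∃ G : LaurentSeries A,
      embA A G = ∏ b ∈ Finset.range ℓ, twistK (ζ ^ b) (embA A y) ∧
      redA π G = redA π y ^ ℓ := by
  obtain ⟨hζA, hζ1⟩ := h51_root_mem A π hℓ hζ
  have hb : ∀ b : ℕ, ∃ g : LaurentSeries A,
      embA A g = twistK (ζ ^ b) (embA A y) ∧ redA π g = redA π y := by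
    intro b
    have hmem : ζ ^ b ∈ A := pow_mem hζA b
    have h1 : π ⟨ζ ^ b, hmem⟩ = 1 := by
      have : (⟨ζ ^ b, hmem⟩ : A) = ⟨ζ, hζA⟩ ^ b := Subtype.ext rfl
      rw [this, map_pow, hζ1, one_pow]
    exact h51_twist_red A π hker (ζ ^ b) hmem h1 y
  choose g hg1 hg2 using hb
  refine ⟨∏ b ∈ Finset.range ℓ, g b, ?_, ?_⟩
  · rw [map_prod]
    exact Finset.prod_congr rfl (fun b _ => hg1 b)
  · rw [map_prod, Finset.prod_congr rfl (fun b _ => hg2 b), Finset.prod_const,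
      Finset.card_range]

end Twist

section Norm

variable {K : Type} [Field K] (A : ValuationSubring K) {k : Type} [Field k] (π : A →+* k)

/-- `Φ W = W(t^{ℓ²}) · ∏_{b < ℓ} W(ζ^b t)`. -/
def h51_Phi (ℓ : ℕ) [NeZero ℓ] (ζ : K) (W : LaurentSeries K) : LaurentSeries K :=
  qExpand K (ℓ * ℓ) W * ∏ b ∈ Finset.range ℓ, twistK (ζ ^ b) W

theorem h51_Phi_mul (ℓ : ℕ) [NeZero ℓ] {ζ : K} (hζ : ζ ≠ 0) (W₁ W₂ : LaurentSeries K) :
    h51_Phi ℓ ζ (W₁ * W₂) = h51_Phi ℓ ζ W₁ * h51_Phi ℓ ζ W₂ := by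
  unfold h51_Phi
  rw [map_mul, Finset.prod_congr rfl (fun b _ => twistK_mul (pow_ne_zero b hζ) W₁ W₂),
    Finset.prod_mul_distrib]
  ring

/-- **descent and reduction of the norm**: if `n(t^ℓ) = Φ y` with `y ∈ A((q))`, then `n` has
coefficients in `A` and `n ≡ y(q^ℓ) · Frob(y)` modulo `𝔪_A`. -/
theorem h51_norm_red (hker : ∀ a : A, π a = 0 ↔ (a : K) ∈ A.nonunits)
    {ℓ : ℕ} [NeZero ℓ] (hℓ : ℓ.Prime) [CharP k ℓ] [ExpChar k ℓ] {ζ : K} (hζ : ζ ^ ℓ = 1)
    (y : LaurentSeries A) (n : LaurentSeries K)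
    (hn : qExpand K ℓ n = h51_Phi ℓ ζ (embA A y)) :
    ∃ nA : LaurentSeries A, embA A nA = n ∧
      redA π nA = qExpand k ℓ (redA π y) * coeffMap (frobenius k ℓ) (redA π y) := by
  obtain ⟨G, hG1, hG2⟩ := h51_prod_twist_red A π hker hℓ hζ y
  -- the integral form of `Φ y`
  have hΦ : embA A (qExpand A (ℓ * ℓ) y * G) = qExpand K ℓ n := by
    rw [hn, h51_Phi, map_mul, hG1, embA, ModularCurve.coeffMap_qExpand]
  -- `n` has coefficients in `A`
  obtain ⟨nA, hnA⟩ := (exists_embA_eq_iff A n).2 (fun m => by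
    have h1 : n.coeff m = (qExpand K ℓ n).coeff ((ℓ : ℤ) * m) := (qExpand_coeff_mul ℓ n m).symm
    rw [h1, ← hΦ, h36_embA_coeff]
    exact ((qExpand A (ℓ * ℓ) y * G).coeff ((ℓ : ℤ) * m)).2)
  refine ⟨nA, hnA, ?_⟩
  have h2 : qExpand A ℓ nA = qExpand A (ℓ * ℓ) y * G := by
    apply embA_injective A
    rw [hΦ, ← hnA, embA, ModularCurve.coeffMap_qExpand]
  have h3 := congrArg (redA π) h2
  rw [map_mul, hG2, redA, ModularCurve.coeffMap_qExpand, ModularCurve.coeffMap_qExpand,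
    pow_char_eq_qExpand ℓ (coeffMap π y), ← qExpand_qExpand, ← map_mul] at h3
  exact qExpand_injective ℓ h3

/-- reduction of the image under a lift of Frobenius. -/
theorem h51_red_frob {ℓ : ℕ} [ExpChar k ℓ] (hker : ∀ a : A, π a = 0 ↔ (a : K) ∈ A.nonunits)
    (σ : K →+* K) (hσ : ∀ z ∈ A, σ z ∈ A) (hF : ∀ z ∈ A, σ z - z ^ ℓ ∈ A.nonunits)
    (y : LaurentSeries A) :
    redA π (coeffMap (h61_resA A σ hσ) y) = coeffMap (frobenius k ℓ) (redA π y) := by
  rw [redA, coeffMap_coeffMap, coeffMap_coeffMap]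
  refine coeffMap_congr (RingHom.ext fun z => ?_) y
  rw [RingHom.comp_apply, RingHom.comp_apply, frobenius_def, ← map_pow, ← sub_eq_zero,
    ← map_sub, hker]
  exact hF z z.2

/-- reduction of the `ℓ`-th power of the image under a right inverse of a lift of
Frobenius. -/
theorem h51_red_inv_pow {ℓ : ℕ} [NeZero ℓ] [ExpChar k ℓ]
    (hker : ∀ a : A, π a = 0 ↔ (a : K) ∈ A.nonunits)
    (σ τ : K →+* K) (hσ : ∀ z ∈ A, σ z ∈ A) (hτ : ∀ z ∈ A, τ z ∈ A)
    (hστ : ∀ z : K, σ (τ z) = z) (hF : ∀ z ∈ A, σ z - z ^ ℓ ∈ A.nonunits)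
    (y : LaurentSeries A) :
    redA π (coeffMap (h61_resA A τ hτ) y) ^ ℓ = qExpand k ℓ (redA π y) := by
  rw [pow_char_eq_qExpand ℓ, ← h51_red_frob A π hker σ hσ hF, coeffMap_coeffMap]
  congr 2
  refine (coeffMap_congr (RingHom.ext fun z => ?_) y).trans (coeffMap_id y)
  apply Subtype.ext
  show σ (τ (z : K)) = (z : K)
  exact hστ _

/-- **the abstract Kronecker congruence.** -/
theorem h51_congFrob_core (hker : ∀ a : A, π a = 0 ↔ (a : K) ∈ A.nonunits)
    {ℓ : ℕ} [NeZero ℓ] (hℓ : ℓ.Prime) [CharP k ℓ] {ζ : K} (hζ : ζ ^ ℓ = 1)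
    (σ τ : K →+* K) (hσ : ∀ z ∈ A, σ z ∈ A) (hτ : ∀ z ∈ A, τ z ∈ A)
    (hστ : ∀ z : K, σ (τ z) = z) (hF : ∀ z ∈ A, σ z - z ^ ℓ ∈ A.nonunits)
    (X : LaurentSeries K) (hX : X ≠ 0)
    (Z : LaurentSeries A) (hZ : redA π Z ≠ 0) (Y : LaurentSeries A) (hY : redA π Y ≠ 0)
    (hrep : embA A Z * X = embA A Y)
    (nX nZ nY : LaurentSeries K)
    (hnX : qExpand K ℓ nX = h51_Phi ℓ ζ X)
    (hnZ : qExpand K ℓ nZ = h51_Phi ℓ ζ (embA A Z))
    (hnY : qExpand K ℓ nY = h51_Phi ℓ ζ (embA A Y)) :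
    ∃ a b : LaurentSeries A,
      coeffMap π b ≠ 0 ∧
      coeffMap A.subtype a =
        (nX / (coeffMap σ X * coeffMap τ X ^ ℓ)) * coeffMap A.subtype b ∧
      coeffMap π a = coeffMap π b := by
  haveI : ExpChar k ℓ := ExpChar.prime hℓ
  have hζ0 : ζ ≠ 0 := by
    rintro rfl
    rw [zero_pow hℓ.ne_zero] at hζ
    exact zero_ne_one hζ
  obtain ⟨nZA, hnZA, hnZr⟩ := h51_norm_red A π hker hℓ hζ Z nZ hnZ
  obtain ⟨nYA, hnYA, hnYr⟩ := h51_norm_red A π hker hℓ hζ Y nY hnY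
  -- multiplicativity of the norm
  have hmul : nY = nZ * nX := by
    apply qExpand_injective (R := K) ℓ
    rw [map_mul, hnY, hnZ, hnX, ← hrep, h51_Phi_mul ℓ hζ0]
  have hfrobinj : Function.Injective (coeffMap (frobenius k ℓ)) :=
    h51_coeffMap_injective _ (frobenius_inj k ℓ)
  have hσinj : Function.Injective (coeffMap σ) := h51_coeffMap_injective _ σ.injective
  have hτinj : Function.Injective (coeffMap τ) := h51_coeffMap_injective _ τ.injective
  have hσX : coeffMap σ X ≠ 0 := fun h0 => hX (hσinj (by rw [h0, map_zero]))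
  have hτX : coeffMap τ X ≠ 0 := fun h0 => hX (hτinj (by rw [h0, map_zero]))
  have hqZ : qExpand k ℓ (redA π Z) ≠ 0 :=
    fun h0 => hZ (qExpand_injective (R := k) ℓ (by rw [h0, map_zero]))
  have hqY : qExpand k ℓ (redA π Y) ≠ 0 :=
    fun h0 => hY (qExpand_injective (R := k) ℓ (by rw [h0, map_zero]))
  have hfZ : coeffMap (frobenius k ℓ) (redA π Z) ≠ 0 :=
    fun h0 => hZ (hfrobinj (by rw [h0, map_zero]))
  have hfY : coeffMap (frobenius k ℓ) (redA π Y) ≠ 0 :=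
    fun h0 => hY (hfrobinj (by rw [h0, map_zero]))
  refine ⟨nYA * coeffMap (h61_resA A σ hσ) Z * coeffMap (h61_resA A τ hτ) Z ^ ℓ,
    nZA * coeffMap (h61_resA A σ hσ) Y * coeffMap (h61_resA A τ hτ) Y ^ ℓ, ?_, ?_, ?_⟩
  · show redA π _ ≠ 0
    rw [map_mul, map_mul, map_pow, hnZr, h51_red_frob A π hker σ hσ hF,
      h51_red_inv_pow A π hker σ τ hσ hτ hστ hF]
    exact mul_ne_zero (mul_ne_zero (mul_ne_zero hqZ hfZ) hfY) hqY
  · show embA A _ = _ * embA A _
    rw [map_mul, map_mul, map_mul, map_mul, map_pow, map_pow, hnYA, hnZA,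
      h61_embA_coeffMap_resA, h61_embA_coeffMap_resA, h61_embA_coeffMap_resA,
      h61_embA_coeffMap_resA, ← hrep, map_mul, map_mul, hmul]
    field_simp
    ring
  · show redA π _ = redA π _
    rw [map_mul, map_mul, map_pow, map_mul, map_mul, map_pow, hnZr, hnYr,
      h51_red_frob A π hker σ hσ hF, h51_red_frob A π hker σ hσ hF,
      h51_red_inv_pow A π hker σ τ hσ hτ hστ hF, h51_red_inv_pow A π hker σ τ hσ hτ hστ hF]
    ring

end Norm

end Fermat.Agent.Red.Kron51
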