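import Mathlib
import Fermat.Prelude.Def_ModularCurve_X0
import Fermat.Prelude.Def_ModularCurve_LaurentCoeff

/-!
# P-RED, R-ESTF (second seat, helper51): Frobenius on Laurent series

For a commutative ring `k` of prime characteristic `ℓ` and `g ∈ k((q))`:
`g ^ ℓ = Σ aₙ^ℓ q^(ℓ n)`, i.e. `g ^ ℓ = qExpand k ℓ (coeffMap (frobenius k ℓ) g)`.

Main statement: `Fermat.Agent.Red.Kron51.pow_char_eq_qExpand`.
-/

set_option autoImplicit false

open ModularCurve

noncomputable section

namespace Fermat.Agent.Red.Kron51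

variable {R S : Type*} [CommRing R] [CommRing S]

/-- `coeffMap` commutes with the inclusion of power series. -/
theorem h51_coeffMap_ofPowerSeries (f : R →+* S) (s : PowerSeries R) :
    coeffMap f (HahnSeries.ofPowerSeries ℤ R s) =
      HahnSeries.ofPowerSeries ℤ S (PowerSeries.map f s) := by
  ext n
  rw [coeffMap_coeff, PowerSeries.coeff_coe, PowerSeries.coeff_coe]
  split_ifs
  · exact map_zero f
  · rw [PowerSeries.coeff_map]

/-- `qExpand` on power series is `PowerSeries.expand`. -/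
theorem h51_qExpand_ofPowerSeries (ℓ : ℕ) [NeZero ℓ] (s : PowerSeries R) :
    qExpand R ℓ (HahnSeries.ofPowerSeries ℤ R s) =
      HahnSeries.ofPowerSeries ℤ R (PowerSeries.expand ℓ (NeZero.ne ℓ) s) := by
  have hℓ0 : (0 : ℤ) < (ℓ : ℤ) := by exact_mod_cast Nat.pos_of_ne_zero (NeZero.ne ℓ)
  ext n
  by_cases hn : (ℓ : ℤ) ∣ n
  · obtain ⟨m, rfl⟩ := hn
    rw [qExpand_coeff_mul, PowerSeries.coeff_coe, PowerSeries.coeff_coe]
    by_cases hm : m < 0
    · rw [if_pos hm, if_pos (mul_neg_of_pos_of_neg hℓ0 hm)]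
    · rw [if_neg hm, if_neg (by
        have := mul_nonneg hℓ0.le (not_lt.mp hm)
        omega)]
      rw [Int.natAbs_mul, Int.natAbs_natCast, PowerSeries.coeff_expand_mul]
  · rw [qExpand_coeff_of_not_dvd ℓ _ hn, PowerSeries.coeff_coe]
    split_ifs with h0
    · rfl
    · rw [PowerSeries.coeff_expand_of_not_dvd]
      intro hd
      apply hn
      have h1 : ((n.natAbs : ℕ) : ℤ) = n := Int.natAbs_of_nonneg (not_lt.mp h0)
      rw [← h1]
      exact Int.natCast_dvd_natCast.mpr hd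

/-- every Laurent series is a monomial times a power series. -/
theorem h51_exists_single_mul (g : LaurentSeries R) :
    ∃ (n : ℤ) (s : PowerSeries R),
      g = HahnSeries.single n (1 : R) * HahnSeries.ofPowerSeries ℤ R s :=
  ⟨g.order, g.powerSeriesPart, (LaurentSeries.single_order_mul_powerSeriesPart g).symm⟩

/-- **FROB-SERIES**: in characteristic `ℓ`, `(Σ aₙ qⁿ) ^ ℓ = Σ aₙ^ℓ q^(ℓ n)`. -/
theorem pow_char_eq_qExpand (ℓ : ℕ) [NeZero ℓ] [ExpChar R ℓ] (g : LaurentSeries R) :
    g ^ ℓ = qExpand R ℓ (coeffMap (frobenius R ℓ) g) := by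
  obtain ⟨n, s, rfl⟩ := h51_exists_single_mul g
  rw [mul_pow, map_mul, map_mul, coeffMap_single, RingHom.map_one, qExpand_single,
    h51_coeffMap_ofPowerSeries, h51_qExpand_ofPowerSeries, HahnSeries.single_pow, one_pow,
    ← map_pow, ← PowerSeries.map_expand]
  have h1 : ℓ • n = (ℓ : ℤ) * n := by simp
  have h2 : s ^ ℓ = PowerSeries.map (frobenius R ℓ) (PowerSeries.expand ℓ (NeZero.ne ℓ) s) :=
    (MvPowerSeries.map_frobenius_expand ℓ (NeZero.ne ℓ) (f := s)).symm
  rw [h1, h2]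

end Fermat.Agent.Red.Kron51
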