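import Fermat.Agent.Red.Kron51.Core

/-!
# P-RED, R-KR (I2): the polynomial Kronecker congruence, abstract form

Setting as in `Kron51/Core.lean`: `K` a field, `A` a valuation subring with residue map
`π : A → k`, `k` of characteristic `ℓ`, `ζ ^ ℓ = 1`.

Let `U ∈ K((q))` with `Z · U = Y`, `Y, Z ∈ A((q))`, and let `P ∈ K((q))[X]` with
`P(t^ℓ) = (X - U(t^{ℓ²})) · ∏_{b < ℓ} (X - U(ζ^b t))` (the characteristic polynomial of the
Hecke correspondence).  Then `n_Z · P` has coefficients in `A((q))` and reduces to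
`(Z̄(q^ℓ) X - Ȳ(q^ℓ)) · (Frob Z̄ · X^ℓ - Frob Ȳ)`, where `n_Z(t^ℓ) = Φ Z` is the norm of `Z`.
-/

set_option autoImplicit false

open ModularCurve Polynomial

noncomputable section

namespace Fermat.Agent.Red.Kron51

open Fermat.Agent.Red.GV Fermat.Agent.Red.GV.Asm Fermat.Agent.Red.Kron Fermat.Agent.Red.EstI

section Poly

variable {K : Type} [Field K] (A : ValuationSubring K) {k : Type} [Field k] (π : A →+* k)

/-- a product of linear factors `a_b X - y_b` with `y_b = a_b u_b`. -/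
theorem h51_prod_linear {R : Type*} [CommRing R] {ι : Type*} (s : Finset ι) (a u : ι → R) :
    ∏ b ∈ s, (C (a b) * X - C (a b * u b)) = C (∏ b ∈ s, a b) * ∏ b ∈ s, (X - C (u b)) := by
  rw [map_prod, ← Finset.prod_mul_distrib]
  refine Finset.prod_congr rfl fun b _ => ?_
  rw [map_mul]
  ring

/-- the characteristic of the Laurent series over a ring of characteristic `ℓ`. -/
theorem h51_charP_laurent (ℓ : ℕ) [CharP k ℓ] : CharP (LaurentSeries k) ℓ :=
  charP_of_injective_ringHom (f := (HahnSeries.C : k →+* LaurentSeries k))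
    HahnSeries.C_injective ℓ

/-- **the polynomial Kronecker congruence, abstract form.** -/
theorem h51_charpoly_red (hker : ∀ a : A, π a = 0 ↔ (a : K) ∈ A.nonunits)
    {ℓ : ℕ} [NeZero ℓ] (hℓ : ℓ.Prime) [CharP k ℓ] [ExpChar k ℓ] {ζ : K} (hζ : ζ ^ ℓ = 1)
    (Y Z : LaurentSeries A) (U : LaurentSeries K) (hrep : embA A Z * U = embA A Y)
    (nZ : LaurentSeries K) (hnZ : qExpand K ℓ nZ = h51_Phi ℓ ζ (embA A Z))
    (P : Polynomial (LaurentSeries K))
    (hP : P.map (qExpand K ℓ) = (X - C (qExpand K (ℓ * ℓ) U)) *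
      ∏ b ∈ Finset.range ℓ, (X - C (twistK (ζ ^ b) U))) :
    ∃ (PA : Polynomial (LaurentSeries A)) (nA : LaurentSeries A),
      embA A nA = nZ ∧
      redA π nA = qExpand k ℓ (redA π Z) * coeffMap (frobenius k ℓ) (redA π Z) ∧
      PA.map (embA A) = C nZ * P ∧
      PA.map (redA π) =
        (C (qExpand k ℓ (redA π Z)) * X - C (qExpand k ℓ (redA π Y))) *
          (C (coeffMap (frobenius k ℓ) (redA π Z)) * X ^ ℓ -
            C (coeffMap (frobenius k ℓ) (redA π Y))) := by
  haveI : Fact ℓ.Prime := ⟨hℓ⟩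
  haveI hcharL : CharP (LaurentSeries k) ℓ := h51_charP_laurent ℓ
  have hζ0 : ζ ≠ 0 := by
    rintro rfl
    rw [zero_pow hℓ.ne_zero] at hζ
    exact zero_ne_one hζ
  obtain ⟨hζA, hζ1⟩ := h51_root_mem A π hℓ hζ
  -- the twists of `Z` and `Y`
  have hb : ∀ (W : LaurentSeries A) (b : ℕ), ∃ g : LaurentSeries A,
      embA A g = twistK (ζ ^ b) (embA A W) ∧ redA π g = redA π W := by
    intro W b
    have hmem : ζ ^ b ∈ A := pow_mem hζA b
    have h1 : π ⟨ζ ^ b, hmem⟩ = 1 := by
      have : (⟨ζ ^ b, hmem⟩ : A) = ⟨ζ, hζA⟩ ^ b := Subtype.ext rfl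
      rw [this, map_pow, hζ1, one_pow]
    exact h51_twist_red A π hker (ζ ^ b) hmem h1 W
  choose g hg1 hg2 using hb
  obtain ⟨nA, hnA, hnAr⟩ := h51_norm_red A π hker hℓ hζ Z nZ hnZ
  -- the numerator in `A((t))[X]`
  obtain ⟨NumT, hNumT⟩ : ∃ NumT : Polynomial (LaurentSeries A), NumT =
    (C (qExpand A (ℓ * ℓ) Z) * X - C (qExpand A (ℓ * ℓ) Y)) *
      ∏ b ∈ Finset.range ℓ, (C (g Z b) * X - C (g Y b)) := ⟨_, rfl⟩
  -- its image in `K((t))[X]`
  have hNum1 : NumT.map (embA A) = (C nZ * P).map (qExpand K ℓ) := by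
    have hR : (C nZ * P).map (qExpand K ℓ) = C (qExpand K (ℓ * ℓ) (embA A Z) *
        ∏ b ∈ Finset.range ℓ, twistK (ζ ^ b) (embA A Z)) * ((X - C (qExpand K (ℓ * ℓ) U)) *
        ∏ b ∈ Finset.range ℓ, (X - C (twistK (ζ ^ b) U))) := by
      rw [Polynomial.map_mul, Polynomial.map_C, hP, hnZ, h51_Phi]
    rw [hR, hNumT, Polynomial.map_mul, Polynomial.map_sub, Polynomial.map_mul,
      Polynomial.map_C, Polynomial.map_C, Polynomial.map_X, Polynomial.map_prod]
    have h1 : embA A (qExpand A (ℓ * ℓ) Y) =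
        qExpand K (ℓ * ℓ) (embA A Z) * qExpand K (ℓ * ℓ) U := by
      rw [embA, ModularCurve.coeffMap_qExpand, ← map_mul]
      exact congrArg _ hrep.symm
    have h2 : embA A (qExpand A (ℓ * ℓ) Z) = qExpand K (ℓ * ℓ) (embA A Z) := by
      rw [embA, ModularCurve.coeffMap_qExpand]
    have h3 : ∀ b ∈ Finset.range ℓ,
        (C (g Z b) * X - C (g Y b) : Polynomial (LaurentSeries A)).map (embA A) =
          C (twistK (ζ ^ b) (embA A Z)) * X -
            C (twistK (ζ ^ b) (embA A Z) * twistK (ζ ^ b) U) := by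
      intro b _
      rw [Polynomial.map_sub, Polynomial.map_mul, Polynomial.map_C, Polynomial.map_C,
        Polynomial.map_X, hg1 Z b, hg1 Y b, ← hrep, twistK_mul (pow_ne_zero b hζ0)]
    rw [Finset.prod_congr rfl h3, h51_prod_linear, h1, h2]
    simp only [map_mul]
    ring
  -- descent of the coefficients
  have hlift : C nZ * P ∈ Polynomial.lifts (embA A) := by
    rw [Polynomial.lifts_iff_coeff_lifts]
    intro m
    have h1 : ∀ i : ℤ, ((C nZ * P).coeff m).coeff i ∈ A := by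
      intro i
      have h2 : ((C nZ * P).coeff m).coeff i =
          (qExpand K ℓ ((C nZ * P).coeff m)).coeff ((ℓ : ℤ) * i) :=
        (qExpand_coeff_mul ℓ _ i).symm
      rw [h2, ← Polynomial.coeff_map, ← hNum1, Polynomial.coeff_map, h36_embA_coeff]
      exact ((NumT.coeff m).coeff ((ℓ : ℤ) * i)).2
    obtain ⟨y, hy⟩ := (exists_embA_eq_iff A ((C nZ * P).coeff m)).2 h1
    exact ⟨y, hy⟩
  obtain ⟨PA, hPA⟩ := (Polynomial.mem_lifts _).1 hlift
  have hembinj : Function.Injective (Polynomial.map (embA A)) :=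
    Polynomial.map_injective _ (embA_injective A)
  have hPAq : PA.map (qExpand A ℓ) = NumT := by
    apply hembinj
    rw [hNum1, ← hPA, Polynomial.map_map, Polynomial.map_map]
    congr 1
    ext x : 1
    simp only [RingHom.comp_apply]
    rw [embA, ModularCurve.coeffMap_qExpand]
  refine ⟨PA, nA, hnA, hnAr, hPA, ?_⟩
  -- the reduction
  apply Polynomial.map_injective _ (qExpand_injective (R := k) ℓ)
  have h4 : (PA.map (redA π)).map (qExpand k ℓ) = NumT.map (redA π) := by
    rw [← hPAq, Polynomial.map_map, Polynomial.map_map]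
    congr 1
    ext x : 1
    simp only [RingHom.comp_apply]
    rw [redA, ModularCurve.coeffMap_qExpand]
  rw [h4, hNumT, Polynomial.map_mul, Polynomial.map_sub, Polynomial.map_mul, Polynomial.map_C,
    Polynomial.map_C, Polynomial.map_X, Polynomial.map_prod]
  have h5 : ∀ b ∈ Finset.range ℓ,
      (C (g Z b) * X - C (g Y b) : Polynomial (LaurentSeries A)).map (redA π) =
        C (redA π Z) * X - C (redA π Y) := by
    intro b _
    rw [Polynomial.map_sub, Polynomial.map_mul, Polynomial.map_C, Polynomial.map_C,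
      Polynomial.map_X, hg2 Z b, hg2 Y b]
  have h8 : (C (redA π Z) * X - C (redA π Y) : Polynomial (LaurentSeries k)) ^ ℓ =
      C (qExpand k ℓ (coeffMap (frobenius k ℓ) (redA π Z))) * X ^ ℓ -
        C (qExpand k ℓ (coeffMap (frobenius k ℓ) (redA π Y))) := by
    rw [sub_pow_char, mul_pow, ← C_pow, ← C_pow, pow_char_eq_qExpand ℓ (redA π Z),
      pow_char_eq_qExpand ℓ (redA π Y)]
  rw [Finset.prod_congr rfl h5, Finset.prod_const, Finset.card_range, h8]
  have h6 : redA π (qExpand A (ℓ * ℓ) Z) = qExpand k ℓ (qExpand k ℓ (redA π Z)) := by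
    rw [redA, ModularCurve.coeffMap_qExpand, qExpand_qExpand]
  have h7 : redA π (qExpand A (ℓ * ℓ) Y) = qExpand k ℓ (qExpand k ℓ (redA π Y)) := by
    rw [redA, ModularCurve.coeffMap_qExpand, qExpand_qExpand]
  rw [h6, h7]
  simp only [Polynomial.map_mul, Polynomial.map_sub, Polynomial.map_C, Polynomial.map_X,
    Polynomial.map_pow]

end Poly

end Fermat.Agent.Red.Kron51
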